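/-
S56 / W5 / GT sub-leaf S-A, part `ncard_parabolic` (helper21, for helper23/helper59):
the number of parabolic elements of `Γ`, from `par_decomp` and `par_fixed_mem_cuspSet`
(taken as hypotheses `H1`, `H2`; they are statements of `GT/Cusps.lean`).
-/
import Fermat.Agent.S56.TW.GT.Fixed

set_option autoImplicit false
set_option linter.unusedSectionVars false
set_option linter.unusedVariables false
set_option linter.style.haveILetI false

namespace Fermat.Agent.S56.GT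

open Matrix OnePoint

variable {k : Type} [Field k] [DecidableEq k]

/-- A central element times `uMat a`, entrywise. -/
theorem par_center_mul_uMat (z : GL (Fin 2) k) (hz : z ∈ Subgroup.center (GL (Fin 2) k)) (a : k) :
    (z * uMat a) 0 0 = z 0 0 ∧ (z * uMat a) 0 1 = z 0 0 * a ∧ (z * uMat a) 1 0 = 0 ∧
      (z * uMat a) 1 1 = z 0 0 := by
  obtain ⟨h01, h10, h00⟩ := (mem_center_iff_entries z).mp hz
  simp only [fx_mul_apply, h01, h10, ← h00]
  simp

theorem par_center_ne_zero (z : GL (Fin 2) k) (hz : z ∈ Subgroup.center (GL (Fin 2) k)) :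
    z 0 0 ≠ 0 := by
  obtain ⟨h01, h10, h00⟩ := (mem_center_iff_entries z).mp hz
  have hd := fx_det_eq z
  rw [h01, zero_mul, sub_zero] at hd
  exact left_ne_zero_of_mul hd

/-- `z * uMat a` is parabolic for `z` central and `a ≠ 0`. -/
theorem par_isParabolic_center_mul_uMat (z : GL (Fin 2) k)
    (hz : z ∈ Subgroup.center (GL (Fin 2) k)) (a : k) (ha : a ≠ 0) :
    (z * uMat a).IsParabolic := by
  obtain ⟨e00, e01, e10, e11⟩ := par_center_mul_uMat z hz a
  rw [Matrix.GeneralLinearGroup.isParabolic_iff_of_upperTriangular e10]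
  refine ⟨by rw [e00, e11], ?_⟩
  rw [e01]
  exact mul_ne_zero (par_center_ne_zero z hz) ha

theorem par_center_mul_uMat_smul_infty (z : GL (Fin 2) k)
    (hz : z ∈ Subgroup.center (GL (Fin 2) k)) (a : k) :
    (z * uMat a) • (∞ : OnePoint k) = ∞ := by
  rw [mul_smul, uMat_smul_infty, smul_eq_self_of_mem_center z hz]

/-- `(z, a) ↦ z * uMat a` is injective on central `z`. -/
theorem par_center_mul_uMat_inj (z z' : GL (Fin 2) k)
    (hz : z ∈ Subgroup.center (GL (Fin 2) k)) (hz' : z' ∈ Subgroup.center (GL (Fin 2) k))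
    (a a' : k) (h : z * uMat a = z' * uMat a') : z = z' ∧ a = a' := by
  obtain ⟨e00, e01, -, -⟩ := par_center_mul_uMat z hz a
  obtain ⟨e00', e01', -, -⟩ := par_center_mul_uMat z' hz' a'
  rw [h] at e00 e01
  have h00 : z 0 0 = z' 0 0 := by rw [← e00, ← e00']
  obtain ⟨h01, h10, h11⟩ := (mem_center_iff_entries z).mp hz
  obtain ⟨h01', h10', h11'⟩ := (mem_center_iff_entries z').mp hz'
  have hzz : z = z' := by
    apply fx_ext
    · exact h00
    · rw [h01, h01']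
    · rw [h10, h10']
    · rw [← h11, ← h11', h00]
  refine ⟨hzz, ?_⟩
  have h1 : z 0 0 * a = z' 0 0 * a' := by rw [← e01, ← e01']
  rw [← h00] at h1
  exact mul_left_cancel₀ (par_center_ne_zero z hz) h1

/-- The number of parabolic elements of `Γ`, given `par_decomp` (`H1`) and
`par_fixed_mem_cuspSet` (`H2`) for `Γ`. -/
theorem ncard_parabolic_of [Finite k] (p : ℕ) [Fact p.Prime] [CharP k p] (hp2 : p ≠ 2)
    (Γ : Subgroup (GL (Fin 2) k))
    (H1 : ∀ g : GL (Fin 2) k, g ∈ Γ → g.IsParabolic →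
      ∃ z u : GL (Fin 2) k, z ∈ scal Γ ∧ u ∈ Γ ∧ IsUnip u ∧ u ≠ 1 ∧ g = z * u)
    (H2 : ∀ g : GL (Fin 2) k, g ∈ Γ → g.IsParabolic → ∀ x : OnePoint k, g • x = x →
      x ∈ cuspSet Γ) :
    {g : GL (Fin 2) k | g ∈ Γ ∧ g.IsParabolic}.ncard =
      Nat.card (scal Γ) * (cuspSet Γ).ncard * (Nat.card (unipAdd Γ) - 1) := by
  classical
  have h2 : (2 : k) ≠ 0 := by
    apply Ring.two_ne_zero
    rw [ringChar.eq k p]
    exact hp2
  haveI : NeZero (2 : k) := ⟨h2⟩
  -- uniqueness of the fixed point of a parabolic element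
  have huniq : ∀ g : GL (Fin 2) k, g.IsParabolic → ∀ x y : OnePoint k, g • x = x → g • y = y →
      x = y := by
    intro g hg x y hx hy
    rw [hg.smul_eq_self_iff.mp hx, hg.smul_eq_self_iff.mp hy]
  -- a choice of `γ x ∈ Γ` with `γ x • ∞ = x` for the cusps `x`
  have hex : ∀ x : OnePoint k, ∃ c : GL (Fin 2) k, x ∈ cuspSet Γ → c ∈ Γ ∧ c • (∞ : OnePoint k) = x := by
    intro x
    by_cases hx : x ∈ cuspSet Γ
    · obtain ⟨c, hc, hcx⟩ := hx
      exact ⟨c, fun _ => ⟨hc, hcx⟩⟩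
    · exact ⟨1, fun h => absurd h hx⟩
  choose γ hγ using hex
  let Ψ : GL (Fin 2) k × OnePoint k × k → GL (Fin 2) k := fun t =>
    γ t.2.1 * (t.1 * uMat t.2.2) * (γ t.2.1)⁻¹
  let D : Set (GL (Fin 2) k × OnePoint k × k) :=
    ((scal Γ : Subgroup (GL (Fin 2) k)) : Set (GL (Fin 2) k)) ×ˢ
      (cuspSet Γ ×ˢ (((unipAdd Γ : AddSubgroup k) : Set k) \ {0}))
  -- properties of `Ψ` on `D`
  have hΨ : ∀ t ∈ D, Ψ t ∈ Γ ∧ (Ψ t).IsParabolic ∧ Ψ t • t.2.1 = t.2.1 := by
    rintro ⟨z, x, a⟩ ⟨hz, hx, ha, ha0⟩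
    have hz' : z ∈ Γ ∧ z ∈ Subgroup.center (GL (Fin 2) k) := hz
    have ha' : uMat a ∈ Γ := ha
    have ha0' : a ≠ 0 := ha0
    obtain ⟨hγx, hγx'⟩ := hγ x hx
    refine ⟨?_, ?_, ?_⟩
    · exact Γ.mul_mem (Γ.mul_mem hγx (Γ.mul_mem hz'.1 ha')) (Γ.inv_mem hγx)
    · show (γ x * (z * uMat a) * (γ x)⁻¹).IsParabolic
      rw [Matrix.GeneralLinearGroup.isParabolic_conj_iff]
      exact par_isParabolic_center_mul_uMat z hz'.2 a ha0'
    · show (γ x * (z * uMat a) * (γ x)⁻¹) • x = x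
      have h1 : (γ x)⁻¹ • x = (∞ : OnePoint k) := by rw [inv_smul_eq_iff, hγx']
      rw [mul_smul, mul_smul, h1, par_center_mul_uMat_smul_infty z hz'.2, hγx']
  have hinj : Set.InjOn Ψ D := by
    rintro ⟨z, x, a⟩ ht ⟨z', x', a'⟩ ht' h
    obtain ⟨-, hpar, hfix⟩ := hΨ _ ht
    obtain ⟨-, -, hfix'⟩ := hΨ _ ht'
    rw [← h] at hfix'
    have hxx : x = x' := huniq _ hpar x x' hfix hfix'
    subst hxx
    have h3 : z * uMat a = z' * uMat a' := by
      have h4 : γ x * (z * uMat a) * (γ x)⁻¹ = γ x * (z' * uMat a') * (γ x)⁻¹ := h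
      exact mul_left_cancel (mul_right_cancel h4)
    obtain ⟨hz, -⟩ := ht
    obtain ⟨hz', -⟩ := ht'
    have hzc : z ∈ Subgroup.center (GL (Fin 2) k) := (show z ∈ Γ ∧ _ from hz).2
    have hzc' : z' ∈ Subgroup.center (GL (Fin 2) k) := (show z' ∈ Γ ∧ _ from hz').2
    obtain ⟨e1, e2⟩ := par_center_mul_uMat_inj z z' hzc hzc' a a' h3
    rw [e1, e2]
  have himg : Ψ '' D = {g : GL (Fin 2) k | g ∈ Γ ∧ g.IsParabolic} := by
    ext g
    constructor
    · rintro ⟨t, ht, rfl⟩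
      exact ⟨(hΨ t ht).1, (hΨ t ht).2.1⟩
    · rintro ⟨hg, hpar⟩
      -- the fixed point of `g`
      have hfix : g • (Matrix.GeneralLinearGroup.parabolicFixedPoint g) =
          Matrix.GeneralLinearGroup.parabolicFixedPoint g := hpar.smul_eq_self_iff.mpr rfl
      set x := Matrix.GeneralLinearGroup.parabolicFixedPoint g with hxdef
      have hx : x ∈ cuspSet Γ := H2 g hg hpar x hfix
      obtain ⟨hγx, hγx'⟩ := hγ x hx
      -- conjugate back to `∞`
      have hg' : (γ x)⁻¹ * g * γ x ∈ Γ := Γ.mul_mem (Γ.mul_mem (Γ.inv_mem hγx) hg) hγx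
      have hpar' : ((γ x)⁻¹ * g * γ x).IsParabolic := by
        rw [Matrix.GeneralLinearGroup.isParabolic_conj_iff']
        exact hpar
      have hfix' : ((γ x)⁻¹ * g * γ x) • (∞ : OnePoint k) = ∞ := by
        rw [mul_smul, mul_smul, hγx', hfix, inv_smul_eq_iff, hγx']
      obtain ⟨z, u, hz, hu, hunip, hu1, hzu⟩ := H1 _ hg' hpar'
      have hzc : z ∈ Subgroup.center (GL (Fin 2) k) := (show z ∈ Γ ∧ _ from hz).2
      have hu_fix : u • (∞ : OnePoint k) = ∞ := by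
        have h5 : u = z⁻¹ * ((γ x)⁻¹ * g * γ x) := by rw [hzu, inv_mul_cancel_left]
        rw [h5, mul_smul, hfix', inv_smul_eq_iff, smul_eq_self_of_mem_center z hzc]
      obtain ⟨a, rfl⟩ := eq_uMat_of_isUnip u hunip hu_fix
      have ha0 : a ≠ 0 := by
        rintro rfl
        exact hu1 uMat_zero
      refine ⟨(z, x, a), ⟨hz, hx, hu, ha0⟩, ?_⟩
      show γ x * (z * uMat a) * (γ x)⁻¹ = g
      rw [← hzu]
      group
  rw [← himg, hinj.ncard_image, Set.ncard_prod, Set.ncard_prod,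
    Set.ncard_sdiff_singleton_of_mem (show (0 : k) ∈ ((unipAdd Γ : AddSubgroup k) : Set k) from
      (unipAdd Γ).zero_mem), ← mul_assoc]
  rfl

end Fermat.Agent.S56.GT
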